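import Fermat.Agent.LT.T6.Spec

/-!
# Row LT, tower T6, leaf T6.09 `OrbSumUniqC` (helper944) -- OFF-MAIN

`orbSumUniqC944 : Fermat.Agent.LT.T6.OrbSumUniqC` (unconditional), VERBATIM against
`Fermat/Agent/LT/T6/Spec.lean` of helper22.

The orbit sum does not depend on the set of representatives.

* `orbSumGen_unique944` : the abstract statement, for ANY group `Γ` with an endomorphism `s`, any
  predicate `U` closed under products and inverses and stable under `s`, any bi-`U`-invariant
  `φ`, and any predicate `C` ("compact part of the twisted centraliser") which is compatible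
  with `s`-conjugation by `U`.  Two systems of representatives are in bijection on the support
  of `φ`, the bijection preserves `φ` and the index `cIndex`.
* `inU_mul944`, `inU_inv944`, `inU_glAut944` : `U(n)` is closed under products and inverses and is
  stable under an automorphism of the field which preserves the valuation.
* `inTwCentC_conj944` : the compact part of the twisted centraliser of `u⁻¹ y s(u)` is the
  conjugate of the one of `y` (trace and determinant are invariant under conjugation).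

The abstract statement also applies verbatim to `IsSplitOrbSum` (it is an `IsOrbSumGen`).
-/

set_option autoImplicit false

open scoped Matrix

noncomputable section

namespace Fermat.Agent.LT.T6.H944

open Fermat.Agent.LT.T6

/-! ## 1. The abstract statement -/

section Abstract

variable {Γ : Type} [Group Γ]

/-- The index `cIndex` is invariant under `s`-conjugation by an element of `U`. -/
theorem cIndex_conj944 (s : Γ →* Γ) (U : Γ → Prop) (C : Γ → Γ → Prop)
    (hmul : ∀ u v : Γ, U u → U v → U (u * v)) (hinv : ∀ u : Γ, U u → U u⁻¹)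
    (hC : ∀ y u t : Γ, U u → (C (u⁻¹ * y * s u) t ↔ C y (u * t * u⁻¹)))
    (y u : Γ) (hu : U u) :
    cIndex U C (u⁻¹ * y * s u) = cIndex U C y := by
  unfold cIndex
  have himg : {c : Set Γ | ∃ t : Γ, C (u⁻¹ * y * s u) t ∧
        c = {g : Γ | ∃ v : Γ, U v ∧ g = t * v}}
      = (fun c : Set Γ => (fun g : Γ => u⁻¹ * g) '' c) ''
        {c : Set Γ | ∃ t : Γ, C y t ∧ c = {g : Γ | ∃ v : Γ, U v ∧ g = t * v}} := by
    ext c
    constructor
    · rintro ⟨t, ht, rfl⟩
      refine ⟨{g : Γ | ∃ v : Γ, U v ∧ g = (u * t * u⁻¹) * v},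
        ⟨u * t * u⁻¹, (hC y u t hu).1 ht, rfl⟩, ?_⟩
      ext g
      constructor
      · rintro ⟨g', ⟨v, hv, rfl⟩, rfl⟩
        exact ⟨u⁻¹ * v, hmul _ _ (hinv _ hu) hv, by group⟩
      · rintro ⟨v, hv, rfl⟩
        exact ⟨u * t * u⁻¹ * (u * v), ⟨u * v, hmul _ _ hu hv, rfl⟩, by group⟩
    · rintro ⟨c', ⟨t', ht', rfl⟩, rfl⟩
      refine ⟨u⁻¹ * t' * u, ?_, ?_⟩
      · rw [hC y u _ hu]
        have h1 : u * (u⁻¹ * t' * u) * u⁻¹ = t' := by group
        rw [h1]
        exact ht'
      · ext g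
        constructor
        · rintro ⟨g', ⟨v, hv, rfl⟩, rfl⟩
          exact ⟨u⁻¹ * v, hmul _ _ (hinv _ hu) hv, by group⟩
        · rintro ⟨v, hv, rfl⟩
          exact ⟨t' * (u * v), ⟨u * v, hmul _ _ hu hv, rfl⟩, by group⟩
  rw [himg]
  exact Set.ncard_image_of_injective _ (Set.image_injective.mpr (mul_right_injective u⁻¹))

/-- **Uniqueness of the orbit sum, abstract form.** -/
theorem orbSumGen_unique944 (s : Γ →* Γ) (U : Γ → Prop) (C : Γ → Γ → Prop) (φ : Γ → ℂ) (δ : Γ)
    (hmul : ∀ u v : Γ, U u → U v → U (u * v)) (hinv : ∀ u : Γ, U u → U u⁻¹)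
    (hs : ∀ u : Γ, U u → U (s u)) (hφ : IsBiInv U φ)
    (hC : ∀ y u t : Γ, U u → (C (u⁻¹ * y * s u) t ↔ C y (u * t * u⁻¹)))
    {c c' : ℂ} (h : IsOrbSumGen s U C φ δ c) (h' : IsOrbSumGen s U C φ δ c') : c = c' := by
  classical
  obtain ⟨R, hR1, hR2, hR3, rfl⟩ := h
  obtain ⟨R', hR1', hR2', hR3', rfl⟩ := h'
  -- the term is invariant under `s`-conjugation by `U`
  have hterm : ∀ (y u : Γ), U u →
      φ (u⁻¹ * y * s u) * (cIndex U C (u⁻¹ * y * s u) : ℂ) = φ y * (cIndex U C y : ℂ) := by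
    intro y u hu
    rw [cIndex_conj944 s U C hmul hinv hC y u hu, hφ u⁻¹ (s u) y (hinv u hu) (hs u hu)]
  have hφne : ∀ y : Γ, φ y * (cIndex U C y : ℂ) ≠ 0 → φ y ≠ 0 := fun y hy h0 =>
    hy (by rw [h0, zero_mul])
  -- the choice of the representative in `R'`
  have hex : ∀ y ∈ R, φ y * (cIndex U C y : ℂ) ≠ 0 →
      ∃ y' ∈ R', ∃ u : Γ, U u ∧ y = u⁻¹ * y' * s u := fun y hy hne =>
    hR3' y (hR1 y hy) (hφne y hne)
  refine Finset.sum_bij_ne_zero (fun y hy hne => Classical.choose (hex y hy hne))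
    (fun y hy hne => (Classical.choose_spec (hex y hy hne)).1) ?_ ?_ ?_
  · -- injectivity
    intro y₁ hy₁ hne₁ y₂ hy₂ hne₂ heq
    have hspec₁ := Classical.choose_spec (hex y₁ hy₁ hne₁)
    have hspec₂ := Classical.choose_spec (hex y₂ hy₂ hne₂)
    rw [← heq] at hspec₂
    generalize Classical.choose (hex y₁ hy₁ hne₁) = z at hspec₁ hspec₂
    obtain ⟨-, u₁, hu₁, e₁⟩ := hspec₁
    obtain ⟨-, u₂, hu₂, e₂⟩ := hspec₂
    refine hR2 y₁ hy₁ y₂ hy₂ ⟨u₁⁻¹ * u₂, hmul _ _ (hinv _ hu₁) hu₂, ?_⟩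
    rw [e₂, e₁, map_mul, map_inv]
    group
  · -- surjectivity
    intro b hb hne
    obtain ⟨y, hy, u, hu, e⟩ := hR3 b (hR1' b hb) (hφne b hne)
    have hney : φ y * (cIndex U C y : ℂ) ≠ 0 := by
      rw [← hterm y u hu, ← e]
      exact hne
    refine ⟨y, hy, hney, ?_⟩
    have hspec := Classical.choose_spec (hex y hy hney)
    generalize Classical.choose (hex y hy hney) = y'' at hspec ⊢
    obtain ⟨hmem, w, hw, e'⟩ := hspec
    refine hR2' _ hmem b hb ⟨w * u, hmul _ _ hw hu, ?_⟩
    rw [e, e', map_mul]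
    group
  · -- the terms agree
    intro y hy hne
    have hspec := Classical.choose_spec (hex y hy hne)
    generalize Classical.choose (hex y hy hne) = z at hspec ⊢
    obtain ⟨-, u, hu, e⟩ := hspec
    rw [e]
    exact hterm _ u hu

end Abstract

/-! ## 2. The congruence subgroups `U(n)` -/

section Local

variable {k : Type} [Field k] [Valued k Γ₀]

/-- `exp (-n) ≤ 1`. -/
theorem exp_neg_le_one944 (n : ℕ) : (WithZero.exp (-(n : ℤ)) : Γ₀) ≤ 1 := by
  rw [← WithZero.exp_zero]
  exact WithZero.exp_le_exp.mpr (by omega)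

/-- The entries of `M - 1` have valuation at most `exp (-n)`. -/
def Near944 (n : ℕ) (M : Matrix (Fin 2) (Fin 2) k) : Prop :=
  ∀ i j : Fin 2, Valued.v (M i j - (1 : Matrix (Fin 2) (Fin 2) k) i j) ≤ WithZero.exp (-(n : ℤ))

theorem inU_iff944 (n : ℕ) (g : GL (Fin 2) k) :
    InU n g ↔ Near944 n (g : Matrix (Fin 2) (Fin 2) k) ∧
      Near944 n ((g⁻¹ : GL (Fin 2) k) : Matrix (Fin 2) (Fin 2) k) :=
  ⟨fun h => ⟨fun i j => (h i j).1, fun i j => (h i j).2⟩, fun h i j => ⟨h.1 i j, h.2 i j⟩⟩

theorem near_mul944 (n : ℕ) {A B : Matrix (Fin 2) (Fin 2) k} (hA : Near944 n A)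
    (hB : Near944 n B) : Near944 n (A * B) := by
  intro i j
  have e : A * B - 1 = (A - 1) * (B - 1) + (A - 1) + (B - 1) := by noncomm_ring
  have e' : (A * B) i j - (1 : Matrix (Fin 2) (Fin 2) k) i j
      = ((A - 1) * (B - 1)) i j + (A i j - (1 : Matrix (Fin 2) (Fin 2) k) i j)
        + (B i j - (1 : Matrix (Fin 2) (Fin 2) k) i j) := by
    have := congrFun (congrFun e i) j
    simpa [Matrix.sub_apply, Matrix.add_apply] using this
  rw [e']
  refine Valuation.map_add_le _ (Valuation.map_add_le _ ?_ (hA i j)) (hB i j)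
  rw [Matrix.mul_apply]
  refine Valuation.map_sum_le _ (fun l _ => ?_)
  rw [Valuation.map_mul]
  calc Valued.v ((A - 1) i l) * Valued.v ((B - 1) l j)
      ≤ WithZero.exp (-(n : ℤ)) * 1 :=
        mul_le_mul' (by simpa [Matrix.sub_apply] using hA i l)
          (le_trans (by simpa [Matrix.sub_apply] using hB l j) (exp_neg_le_one944 n))
    _ = WithZero.exp (-(n : ℤ)) := mul_one _

/-- `U(n)` is closed under products. -/
theorem inU_mul944 (n : ℕ) (g h : GL (Fin 2) k) (hg : InU n g) (hh : InU n h) :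
    InU n (g * h) := by
  rw [inU_iff944] at hg hh ⊢
  refine ⟨?_, ?_⟩
  · rw [Units.val_mul]
    exact near_mul944 n hg.1 hh.1
  · rw [mul_inv_rev, Units.val_mul]
    exact near_mul944 n hh.2 hg.2

/-- `U(n)` is closed under inverses. -/
theorem inU_inv944 (n : ℕ) (g : GL (Fin 2) k) (hg : InU n g) : InU n g⁻¹ := by
  rw [inU_iff944] at hg ⊢
  rw [inv_inv]
  exact ⟨hg.2, hg.1⟩

theorem near_map944 (s : k ≃+* k) (hv : ∀ y : k, Valued.v (s y) = Valued.v y) (n : ℕ)
    {A : Matrix (Fin 2) (Fin 2) k} (hA : Near944 n A) :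
    Near944 n (A.map (s : k →+* k)) := by
  intro i j
  have h1 : s ((1 : Matrix (Fin 2) (Fin 2) k) i j) = (1 : Matrix (Fin 2) (Fin 2) k) i j := by
    by_cases hij : i = j
    · subst hij
      rw [Matrix.one_apply_eq, map_one]
    · rw [Matrix.one_apply_ne hij, map_zero]
  have e : (A.map (s : k →+* k)) i j - (1 : Matrix (Fin 2) (Fin 2) k) i j
      = s (A i j - (1 : Matrix (Fin 2) (Fin 2) k) i j) := by
    rw [map_sub, h1]
    rfl
  rw [e, hv]
  exact hA i j

/-- `U(n)` is stable under an automorphism of the field which preserves the valuation. -/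
theorem inU_glAut944 (s : k ≃+* k) (hv : ∀ y : k, Valued.v (s y) = Valued.v y) (n : ℕ)
    (g : GL (Fin 2) k) (hg : InU n g) : InU n (glAut s g) := by
  rw [inU_iff944] at hg ⊢
  refine ⟨?_, ?_⟩
  · exact near_map944 s hv n hg.1
  · rw [← map_inv]
    exact near_map944 s hv n hg.2

/-- The compact part of the twisted centraliser of `u⁻¹ y s(u)` is the conjugate by `u` of the
compact part of the twisted centraliser of `y`. -/
theorem inTwCentC_conj944 (s : k ≃+* k) (y u t : GL (Fin 2) k) :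
    InTwCentC s (u⁻¹ * y * glAut s u) t ↔ InTwCentC s y (u * t * u⁻¹) := by
  have htr : ((u * t * u⁻¹ : GL (Fin 2) k) : Matrix (Fin 2) (Fin 2) k).trace
      = (t : Matrix (Fin 2) (Fin 2) k).trace := by
    rw [Units.val_mul, Matrix.trace_mul_comm, ← Units.val_mul]
    congr 2
    group
  have hdet : ((u * t * u⁻¹ : GL (Fin 2) k) : Matrix (Fin 2) (Fin 2) k).det
      = (t : Matrix (Fin 2) (Fin 2) k).det := by
    rw [Units.val_mul, Matrix.det_mul_comm, ← Units.val_mul]
    congr 2
    group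
  have hcent : InTwCent s (u⁻¹ * y * glAut s u) t ↔ InTwCent s y (u * t * u⁻¹) := by
    unfold InTwCent
    rw [map_mul, map_mul, map_inv]
    constructor
    · intro h
      have : (u * t * u⁻¹)⁻¹ * y * (glAut s u * glAut s t * (glAut s u)⁻¹)
          = u * (t⁻¹ * (u⁻¹ * y * glAut s u) * glAut s t) * (glAut s u)⁻¹ := by group
      rw [this, h]
      group
    · intro h
      have : t⁻¹ * (u⁻¹ * y * glAut s u) * glAut s t
          = u⁻¹ * ((u * t * u⁻¹)⁻¹ * y * (glAut s u * glAut s t * (glAut s u)⁻¹))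
            * glAut s u := by group
      rw [this, h]
  unfold InTwCentC
  rw [hcent, htr, hdet]

end Local

/-! ## 3. The leaf -/

/-- **T6.09 `OrbSumUniqC`**: the orbit sum does not depend on the representatives. -/
theorem orbSumUniqC944 : OrbSumUniqC := by
  intro k _ _ s hv n φ hφ δ c c' h h'
  exact orbSumGen_unique944 (glAut s) (InU n) (InTwCentC s) φ δ (inU_mul944 n) (inU_inv944 n)
    (inU_glAut944 s hv n) hφ (fun y u t _ => inTwCentC_conj944 s y u t) h h'

end Fermat.Agent.LT.T6.H944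

end
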