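import Mathlib
import Fermat.Agent.LT.T6.Spec
import Fermat.Agent.LT.T6.SpecArch
import Fermat.Agent.LT.T6.H626.ArchCut
import Fermat.Agent.LT.T6.H830.HCSpec
import Fermat.Agent.LT.T6.H830.HCTransC
import Fermat.Agent.LT.T6.H626.AbelCut
import Fermat.Agent.LT.T6.H626.FamAlg

/-!
# Row LT, tower T6, sub-leaf T6.20a.10 `F1AbelOfC626`: CLOSED (helper944)

OFF-MAIN.  Sub-spec: `LT/T6/H626/AbelCut.lean` (helper626, sha256 6a4d529b) and
`LT/T6/H626/FamAlg.lean` (9c407f7e), on `LT/T6/H626/ArchCut.lean` (fac998d4),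
`LT/T6/H830/HCSpec.lean` (helper830, c3e7d846), `LT/T6/SpecArch.lean` (helper22, 003240b2),
`LT/T6/Spec.lean` (v3, 8c5f2ae7); asset `LT/T6/H830/HCTransC.lean` (helper830, c283e776):
byte-identical copies.  Nothing is assumed.

`f1AbelOf944 : F1AbelOfC626`, i.e.
`H830.CartanCC → H830.WIntCC → RadInt1C626 → ∀ c n, n = 1 ∨ n = -1 → ∀ φ, IsArchTestC φ →
IsAbelHalf626 c φ (abelF1_626 c n φ)` (VERBATIM; the hypothesis `n = ±1` is not used).

## Proof

`ζ = log √(ab)`, `r = log √(a/b)`, `A = cosh r = (a + b) / (2 √a √b)`, `α = a / (4b)`, `β = 1/2`,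
`Φ = profX944 φ ζ` = the profile of `φ` on `|det| = e^ζ` as a function of `X = rhoC`
(`Φ (rhoC g) = φ g` by `CartanCC`, `Φ (cosh s) = φ (bC ζ s 0)`; continuous, `0` for large `X`).

* Left side: for `y = !![a, a x; 0, b]`, `ρ + 1 = 2 (A² + α x²)`, `x_v = √(A² + α x² + β v²)`,
  `j_n(y) = (a + b) ± i a x`, `φ(M_v(y)) = Φ(x_v)` (`famAlg626`), so the integrand is
  `(p + q x) ∫ Φ(√(A² + α x² + β v²)) / (A² + α x²) dv`; the part `q x` is odd
  (`integral_affine_mul944`: the kernel is continuous with compact support on `ℝ²`), the rest is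
  `RadInt1C626`.
* Right side: `u' w = bC ζ r w`, `WIntCC` with `Ψ = 1`, and the substitution `X = cosh s`
  (`integral_cosh_subst944`).
* Constants: `(√2/4) A (2π / (A √(αβ))) = 2π e^{-r}`.

Reusable for T6.20a.9 (`F0AbelOfC626`): sections 1-3 (`profX944`, `profX_rhoC944`,
`profX_cosh944`, `profX_eq_zero944`, `integral_cosh_subst944`, `rhoM_upper944`, `xv_upper944`).
-/

set_option autoImplicit false

open scoped Matrix
open MeasureTheory

noncomputable section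

namespace Fermat.Agent.LT.T6.H944

open Fermat.Agent.LT.T6 Fermat.Agent.LT.T6.H626 Fermat.Agent.LT.T6.H830

/-! ## 1. The radial profile as a function of `X = rhoC` -/

/-- The radial profile of `φ` on `|det| = e^ζ` as a function of `X = rhoC`. -/
def profX944 (φ : GL (Fin 2) ℂ → ℂ) (ζ : ℝ) (X : ℝ) : ℂ :=
  φ (bC ζ (Real.arcosh (max X 1)) 0)

theorem continuous_profX944 {φ : GL (Fin 2) ℂ → ℂ} (hφ : IsArchTestC φ) (ζ : ℝ) :
    Continuous (profX944 φ ζ) := by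
  have h1 : Continuous fun X : ℝ => Real.arcosh (max X 1) :=
    Real.continuousOn_arcosh.comp_continuous (continuous_id.max continuous_const)
      (fun X => le_max_right X 1)
  exact (continuous_profile830 hφ ζ).comp h1

theorem norm_det_bC944 (ζ s : ℝ) (w : ℂ) :
    ‖((bC ζ s w : GL (Fin 2) ℂ) : Matrix (Fin 2) (Fin 2) ℂ).det‖ = Real.exp ζ := by
  rw [coe_bC830, Matrix.det_fin_two_of, mul_zero, sub_zero, ← Complex.ofReal_mul,
    Complex.norm_real, Real.norm_eq_abs, abs_of_pos (mul_pos (Real.exp_pos _) (Real.exp_pos _)),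
    ← Real.exp_add]
  congr 1
  ring

/-- `φ` is a function of `rhoC` on `|det| = e^ζ` (`CartanCC`). -/
theorem profX_rhoC944 (hC : CartanCC) {φ : GL (Fin 2) ℂ → ℂ} (hφ : IsArchTestC φ) (ζ : ℝ)
    (g : GL (Fin 2) ℂ) (hg : ‖(g : Matrix (Fin 2) (Fin 2) ℂ).det‖ = Real.exp ζ) :
    φ g = profX944 φ ζ (rhoC g) := by
  have h1 : 1 ≤ rhoC g := one_le_rhoC830 g
  unfold profX944
  rw [max_eq_left h1]
  obtain ⟨k, k', hk, hk', e⟩ := hC g (bC ζ (Real.arcosh (rhoC g)) 0)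
    (by rw [hg, norm_det_bC944]) (by rw [rhoC_bC_zero830, Real.cosh_arcosh h1])
  rw [e, hφ.right _ _ hk', hφ.left _ _ hk]

theorem profX_cosh944 (hC : CartanCC) {φ : GL (Fin 2) ℂ → ℂ} (hφ : IsArchTestC φ) (ζ s : ℝ) :
    profX944 φ ζ (Real.cosh s) = φ (bC ζ s 0) := by
  rw [profX_rhoC944 hC hφ ζ (bC ζ s 0) (norm_det_bC944 ζ s 0), rhoC_bC_zero830]

theorem profX_eq_zero944 {φ : GL (Fin 2) ℂ → ℂ} (hφ : IsArchTestC φ) (ζ : ℝ) :
    ∃ R : ℝ, ∀ X : ℝ, R < X → profX944 φ ζ X = 0 := by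
  obtain ⟨M, hM⟩ := (hφ.supp.isCompact.bddAbove_image continuous_rhoC830.continuousOn)
  have hM' : ∀ g, φ g ≠ 0 → rhoC g ≤ M := fun g hg => hM ⟨g, subset_tsupport _ hg, rfl⟩
  refine ⟨max M 1, fun X hX => ?_⟩
  by_contra hne
  have h1 : (1 : ℝ) ≤ X := le_trans (le_max_right M 1) hX.le
  have h2 := hM' _ hne
  rw [rhoC_bC_zero830, max_eq_left h1, Real.cosh_arcosh h1] at h2
  exact absurd (lt_of_le_of_lt (le_max_left M 1) hX) (not_lt.2 h2)

/-! ## 2. Real analysis (Mathlib only) -/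

theorem tendsto_cosh_atTop944 : Filter.Tendsto Real.cosh Filter.atTop Filter.atTop := by
  refine Filter.tendsto_atTop_mono (f := fun x => Real.exp x / 2) (fun x => ?_)
    (Real.tendsto_exp_atTop.atTop_div_const (by norm_num))
  rw [Real.cosh_eq]
  have := Real.exp_pos (-x)
  linarith

/-- `s ↦ Φ (cosh s)` has compact support if `Φ` vanishes on `(R, ∞)`. -/
theorem hasCompactSupport_comp_cosh944 (Φ : ℝ → ℂ) (hR : ∃ R : ℝ, ∀ X : ℝ, R < X → Φ X = 0) :
    HasCompactSupport fun s : ℝ => Φ (Real.cosh s) := by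
  obtain ⟨R, hR⟩ := hR
  set S := Real.arcosh (max R 1) with hS
  have hS0 : 0 ≤ S := Real.arcosh_nonneg (le_max_right R 1)
  refine HasCompactSupport.intro (isCompact_Icc (a := -S) (b := S)) (fun s hs => hR _ ?_)
  have h1 : |S| < |s| := by
    rw [abs_of_nonneg hS0]
    by_contra h
    rw [not_lt] at h
    exact hs ⟨by linarith [neg_abs_le s], by linarith [le_abs_self s]⟩
  have h2 : Real.cosh S < Real.cosh s := Real.cosh_lt_cosh.2 h1
  rw [hS, Real.cosh_arcosh (le_max_right R 1)] at h2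
  exact lt_of_le_of_lt (le_max_left R 1) h2

/-- The substitution `X = cosh s` on a half line. -/
theorem integral_cosh_subst944 (Φ : ℝ → ℂ) (hΦ : Continuous Φ)
    (hR : ∃ R : ℝ, ∀ X : ℝ, R < X → Φ X = 0) (t : ℝ) :
    (∫ s in Set.Ioi t, Φ (Real.cosh s) * ((Real.sinh s : ℝ) : ℂ))
      = ∫ X in Set.Ioi (Real.cosh t), Φ X := by
  have hcs := hasCompactSupport_comp_cosh944 Φ hR
  obtain ⟨R, hR⟩ := hR
  have hg1 : IntegrableOn Φ (Set.Ici 1) := by
    have h0 : IntegrableOn Φ (Set.Icc 1 (max R 1)) := hΦ.continuousOn.integrableOn_Icc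
    refine h0.of_forall_sdiff_eq_zero measurableSet_Ici (fun x hx => hR x ?_)
    have hx1 : (1 : ℝ) ≤ x := hx.1
    have hx2 : ¬ x ≤ max R 1 := fun h => hx.2 ⟨hx1, h⟩
    exact lt_of_le_of_lt (le_max_left R 1) (not_le.1 hx2)
  have hk : Continuous fun s : ℝ => Real.sinh s • (Φ ∘ Real.cosh) s :=
    Real.continuous_sinh.smul (hΦ.comp Real.continuous_cosh)
  have hkc : HasCompactSupport fun s : ℝ => Real.sinh s • (Φ ∘ Real.cosh) s := by
    have := hcs.smul_left (f := Real.sinh)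
    exact this
  have hg2 : IntegrableOn (fun s : ℝ => Real.sinh s • (Φ ∘ Real.cosh) s) (Set.Ici t) :=
    (hk.integrable_of_hasCompactSupport hkc).integrableOn
  have key := MeasureTheory.integral_deriv_smul_comp_Ioi (f := Real.cosh) (f' := Real.sinh)
    (g := Φ) (a := t) Real.continuous_cosh.continuousOn tendsto_cosh_atTop944
    (fun x _ => (Real.hasDerivAt_cosh x).hasDerivWithinAt) hΦ.continuousOn
    (hg1.mono_set (by
      rintro _ ⟨s, -, rfl⟩
      exact Real.one_le_cosh s)) hg2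
  rw [← key]
  refine setIntegral_congr_fun measurableSet_Ioi (fun s _ => ?_)
  simp only [Function.comp_apply, Complex.real_smul]
  ring

/-- The function `(x, v) ↦ Φ(√(A² + α x² + β v²)) / (A² + α x²)`. -/
def radKer944 (Φ : ℝ → ℂ) (A α β : ℝ) (z : ℝ × ℝ) : ℂ :=
  Φ (Real.sqrt (A ^ 2 + α * z.1 ^ 2 + β * z.2 ^ 2)) / ((A ^ 2 + α * z.1 ^ 2 : ℝ) : ℂ)

theorem continuous_radKer944 (Φ : ℝ → ℂ) (hΦ : Continuous Φ) (A α β : ℝ) (hA : 0 < A)
    (hα : 0 < α) : Continuous (radKer944 Φ A α β) := by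
  unfold radKer944
  refine Continuous.div (hΦ.comp (Real.continuous_sqrt.comp (by fun_prop)))
    (Complex.continuous_ofReal.comp (by fun_prop)) (fun z => ?_)
  have : 0 < A ^ 2 + α * z.1 ^ 2 := by positivity
  exact Complex.ofReal_ne_zero.2 this.ne'

theorem radKer_eq_zero944 (Φ : ℝ → ℂ) {R : ℝ} (hR0 : 0 ≤ R) (hR : ∀ X : ℝ, R < X → Φ X = 0)
    (A α β : ℝ) (hα : 0 < α) (hβ : 0 < β) (z : ℝ × ℝ)
    (hz : z ∉ Set.Icc (-(1 + R ^ 2 / α)) (1 + R ^ 2 / α) ×ˢ
      Set.Icc (-(1 + R ^ 2 / β)) (1 + R ^ 2 / β)) :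
    radKer944 Φ A α β z = 0 := by
  have hbig : ∀ (γ t : ℝ), 0 < γ → ¬ (t ∈ Set.Icc (-(1 + R ^ 2 / γ)) (1 + R ^ 2 / γ)) →
      R ^ 2 < γ * t ^ 2 := by
    intro γ t hγ ht
    have h1 : 1 + R ^ 2 / γ < |t| := by
      by_contra h
      rw [not_lt] at h
      exact ht ⟨by linarith [neg_abs_le t], by linarith [le_abs_self t]⟩
    have h0 : 0 ≤ R ^ 2 / γ := by positivity
    have h2 : |t| ≤ t ^ 2 := by
      rw [← sq_abs t]
      nlinarith [abs_nonneg t]
    have h3 : R ^ 2 / γ < t ^ 2 := by linarith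
    rw [div_lt_iff₀ hγ] at h3
    linarith
  have hS : R ^ 2 < A ^ 2 + α * z.1 ^ 2 + β * z.2 ^ 2 := by
    by_cases h1 : z.1 ∈ Set.Icc (-(1 + R ^ 2 / α)) (1 + R ^ 2 / α)
    · have h2 : ¬ z.2 ∈ Set.Icc (-(1 + R ^ 2 / β)) (1 + R ^ 2 / β) := fun h2 => hz ⟨h1, h2⟩
      have := hbig β z.2 hβ h2
      nlinarith [sq_nonneg A, mul_nonneg hα.le (sq_nonneg z.1)]
    · have := hbig α z.1 hα h1
      nlinarith [sq_nonneg A, mul_nonneg hβ.le (sq_nonneg z.2)]
  unfold radKer944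
  rw [hR _ ((Real.lt_sqrt hR0).2 hS), zero_div]

theorem hasCompactSupport_radKer944 (Φ : ℝ → ℂ) (hR : ∃ R : ℝ, ∀ X : ℝ, R < X → Φ X = 0)
    (A α β : ℝ) (hα : 0 < α) (hβ : 0 < β) : HasCompactSupport (radKer944 Φ A α β) := by
  obtain ⟨R, hR⟩ := hR
  have hR' : ∀ X : ℝ, max R 0 < X → Φ X = 0 := fun X hX =>
    hR X (lt_of_le_of_lt (le_max_left R 0) hX)
  exact HasCompactSupport.intro (isCompact_Icc.prod isCompact_Icc)
    (fun z hz => radKer_eq_zero944 Φ (le_max_right R 0) hR' A α β hα hβ z hz)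

/-- The odd part of the `x`-integral vanishes. -/
theorem integral_affine_mul944 (Φ : ℝ → ℂ) (hΦ : Continuous Φ)
    (hR : ∃ R : ℝ, ∀ X : ℝ, R < X → Φ X = 0) (A α β : ℝ) (hA : 0 < A) (hα : 0 < α)
    (hβ : 0 < β) (p q : ℂ) :
    (∫ x : ℝ, (p + q * ((x : ℝ) : ℂ)) *
        ∫ v : ℝ, Φ (Real.sqrt (A ^ 2 + α * x ^ 2 + β * v ^ 2)) / ((A ^ 2 + α * x ^ 2 : ℝ) : ℂ))
      = p * ∫ x : ℝ, ∫ v : ℝ,
          Φ (Real.sqrt (A ^ 2 + α * x ^ 2 + β * v ^ 2)) / ((A ^ 2 + α * x ^ 2 : ℝ) : ℂ) := by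
  have hc := continuous_radKer944 Φ hΦ A α β hA hα
  have hs := hasCompactSupport_radKer944 Φ hR A α β hα hβ
  have hi : Integrable (radKer944 Φ A α β) ((volume : Measure ℝ).prod (volume : Measure ℝ)) :=
    hc.integrable_of_hasCompactSupport hs
  have hc2 : Continuous fun z : ℝ × ℝ => ((z.1 : ℝ) : ℂ) * radKer944 Φ A α β z :=
    (Complex.continuous_ofReal.comp continuous_fst).mul hc
  have hs2 : HasCompactSupport fun z : ℝ × ℝ => ((z.1 : ℝ) : ℂ) * radKer944 Φ A α β z := by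
    have := hs.mul_left (f := fun z : ℝ × ℝ => ((z.1 : ℝ) : ℂ))
    exact this
  have hi2 : Integrable (fun z : ℝ × ℝ => ((z.1 : ℝ) : ℂ) * radKer944 Φ A α β z)
      ((volume : Measure ℝ).prod (volume : Measure ℝ)) :=
    hc2.integrable_of_hasCompactSupport hs2
  set H : ℝ → ℂ := fun x => ∫ v : ℝ, radKer944 Φ A α β (x, v) with hH
  have hHi : Integrable H := hi.integral_prod_left
  have hxHi : Integrable fun x : ℝ => ((x : ℝ) : ℂ) * H x := by
    have := hi2.integral_prod_left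
    refine this.congr (Filter.Eventually.of_forall fun x => ?_)
    simp only [hH]
    rw [← integral_const_mul]
  have hodd : (∫ x : ℝ, ((x : ℝ) : ℂ) * H x) = 0 := by
    have h1 := integral_neg_eq_self (fun x : ℝ => ((x : ℝ) : ℂ) * H x) volume
    have h2 : (fun x : ℝ => (((-x : ℝ) : ℝ) : ℂ) * H (-x))
        = fun x : ℝ => -(((x : ℝ) : ℂ) * H x) := by
      funext x
      have : H (-x) = H x := by
        simp only [hH, radKer944, neg_sq]
      rw [this]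
      push_cast
      ring
    rw [h2, integral_neg] at h1
    have h3 : (2 : ℂ) * ∫ x : ℝ, ((x : ℝ) : ℂ) * H x = 0 := by
      linear_combination -h1
    rcases mul_eq_zero.1 h3 with h | h
    · exact absurd h two_ne_zero
    · exact h
  show (∫ x : ℝ, (p + q * ((x : ℝ) : ℂ)) * H x) = p * ∫ x : ℝ, H x
  have e : (fun x : ℝ => (p + q * ((x : ℝ) : ℂ)) * H x)
      = fun x : ℝ => p * H x + q * (((x : ℝ) : ℂ) * H x) := by
    funext x
    ring
  rw [e, integral_add (hHi.const_mul p) (hxHi.const_mul q), integral_const_mul,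
    integral_const_mul, hodd, mul_zero, add_zero]

/-! ## 3. The upper triangular matrices `!![a, a x; 0, b]` -/

theorem det_upper944 (a b x : ℝ) :
    (!![a, a * x; 0, b] : Matrix (Fin 2) (Fin 2) ℝ).det = a * b := by
  rw [Matrix.det_fin_two_of]
  ring

/-- `ρ + 1 = 2 (A² + α x²)`, `A = (a + b) / (2 √a √b)`, `α = a / (4 b)`. -/
theorem rhoM_upper944 (a b x : ℝ) (ha : 0 < a) (hb : 0 < b) :
    rhoM626 !![a, a * x; 0, b] + 1
      = 2 * (((a + b) / (2 * (Real.sqrt a * Real.sqrt b))) ^ 2 + a / (4 * b) * x ^ 2) := by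
  have hsa : Real.sqrt a ^ 2 = a := Real.sq_sqrt ha.le
  have hsb : Real.sqrt b ^ 2 = b := Real.sq_sqrt hb.le
  have hsa0 : Real.sqrt a ≠ 0 := (Real.sqrt_pos.2 ha).ne'
  have hsb0 : Real.sqrt b ≠ 0 := (Real.sqrt_pos.2 hb).ne'
  unfold rhoM626
  rw [trace_transpose_mul626, det_upper944, abs_of_pos (mul_pos ha hb)]
  simp only [Matrix.of_apply, Matrix.cons_val', Matrix.cons_val_zero, Matrix.cons_val_one,
    Matrix.empty_val', Matrix.cons_val_fin_one]
  rw [div_pow, mul_pow, mul_pow, hsa, hsb]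
  field_simp
  ring

/-- `x_v = √(A² + α x² + v²/2)`. -/
theorem xv_upper944 (a b x v : ℝ) (ha : 0 < a) (hb : 0 < b) :
    xv626 (rhoM626 !![a, a * x; 0, b]) v
      = Real.sqrt (((a + b) / (2 * (Real.sqrt a * Real.sqrt b))) ^ 2 + a / (4 * b) * x ^ 2
          + 1 / 2 * v ^ 2) := by
  unfold xv626
  congr 1
  have := rhoM_upper944 a b x ha hb
  linarith

/-- `j_n = (a + b) ± i a x`. -/
theorem jn_upper944 (n : ℤ) (a b x : ℝ) (y : GL (Fin 2) ℝ)
    (hy : (y : Matrix (Fin 2) (Fin 2) ℝ) = !![a, a * x; 0, b]) :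
    jn626 n y = ((a + b : ℝ) : ℂ)
      + (if n = 1 then (1 : ℂ) else -1) * ((a : ℝ) : ℂ) * Complex.I * ((x : ℝ) : ℂ) := by
  have h : holPart y = (((a + b : ℝ) : ℂ) + ((0 - a * x : ℝ) : ℂ) * Complex.I) / 2 := by
    unfold holPart
    rw [hy]
    simp only [Matrix.of_apply, Matrix.cons_val', Matrix.cons_val_zero, Matrix.cons_val_one,
      Matrix.empty_val', Matrix.cons_val_fin_one]
  unfold jn626
  rw [h]
  split_ifs with hn
  · simp only [map_div₀, map_add, map_mul, Complex.conj_ofReal, Complex.conj_I, map_ofNat]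
    push_cast
    ring
  · push_cast
    ring

/-! ## 4. The leaf -/

/-- **T6.20a.10** (`F1AbelOfC626`, VERBATIM): the Abel relation for the closed form of weight
`n = ±1`. -/
theorem f1AbelOf944 : F1AbelOfC626 := by
  intro hC hW hR1 c n _ φ hφ a b ha hb u u' hu hu'
  have hsa : 0 < Real.sqrt a := Real.sqrt_pos.2 ha
  have hsb : 0 < Real.sqrt b := Real.sqrt_pos.2 hb
  have hsa2 : Real.sqrt a ^ 2 = a := Real.sq_sqrt ha.le
  have hsb2 : Real.sqrt b ^ 2 = b := Real.sq_sqrt hb.le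
  have hsab : Real.sqrt (a * b) = Real.sqrt a * Real.sqrt b := Real.sqrt_mul ha.le b
  set sa := Real.sqrt a with hsadef
  set sb := Real.sqrt b with hsbdef
  set ζ : ℝ := (Real.log a + Real.log b) / 2 with hζ
  set r : ℝ := (Real.log a - Real.log b) / 2 with hr
  have hea : Real.exp (Real.log a / 2) = sa := by
    rw [Real.exp_half, Real.exp_log ha]
  have heb : Real.exp (Real.log b / 2) = sb := by
    rw [Real.exp_half, Real.exp_log hb]
  have he1 : Real.exp ((ζ + r) / 2) = sa := by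
    rw [← hea]; congr 1; rw [hζ, hr]; ring
  have he2 : Real.exp ((ζ - r) / 2) = sb := by
    rw [← heb]; congr 1; rw [hζ, hr]; ring
  have heζ : Real.exp ζ = sa * sb := by
    rw [← hea, ← heb, ← Real.exp_add]; congr 1; rw [hζ]; ring
  have her : Real.exp r = sa / sb := by
    rw [← hea, ← heb, ← Real.exp_sub]; congr 1; rw [hr]; ring
  have her' : Real.exp (-r) = sb / sa := by
    rw [Real.exp_neg, her, inv_div]
  set A : ℝ := (a + b) / (2 * (sa * sb)) with hAdef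
  have hA : 0 < A := by positivity
  have hAr : Real.cosh r = A := by
    rw [Real.cosh_eq, her, her', hAdef]
    field_simp
    rw [hsa2, hsb2]
  set α : ℝ := a / (4 * b) with hαdef
  have hα : 0 < α := by positivity
  have hβ : (0 : ℝ) < 1 / 2 := by norm_num
  set Φ : ℝ → ℂ := profX944 φ ζ with hΦdef
  have hΦc : Continuous Φ := continuous_profX944 hφ ζ
  have hΦ0 : ∃ R : ℝ, ∀ X : ℝ, R < X → Φ X = 0 := profX_eq_zero944 hφ ζ
  -- the right side
  have hRHS : (∫ w : ℂ, φ (u' w))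
      = ((2 * Real.pi * Real.exp (-r) : ℝ) : ℂ) * ∫ X in Set.Ioi A, Φ X := by
    have e1 : ∀ w : ℂ, u' w = bC ζ r w := fun w => by
      apply Units.ext
      rw [hu' w, coe_bC830, he1, he2]
    have e2 := hW φ hφ (fun _ => 1) continuousOn_const ζ r
    simp only [mul_one] at e2
    simp_rw [e1]
    rw [e2]
    congr 1
    rw [← hAr, ← Real.cosh_abs r, ← integral_cosh_subst944 Φ hΦc hΦ0 |r|]
    refine setIntegral_congr_fun measurableSet_Ioi (fun s _ => ?_)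
    simp only [hΦdef]
    rw [profX_cosh944 hC hφ]
  -- the left side
  set ε : ℂ := if n = 1 then (1 : ℂ) else -1 with hε
  set p : ℂ := ((Real.sqrt 2 / 4 : ℝ) : ℂ) * c * (((a + b : ℝ) : ℂ) / ((2 * (sa * sb) : ℝ) : ℂ))
    with hp
  set q : ℂ := ((Real.sqrt 2 / 4 : ℝ) : ℂ) * c *
    (ε * ((a : ℝ) : ℂ) * Complex.I / ((2 * (sa * sb) : ℝ) : ℂ)) with hq
  have hLHS : ∀ x : ℝ, abelF1_626 c n φ (u x)
      = (p + q * ((x : ℝ) : ℂ)) *
        ∫ v : ℝ, Φ (Real.sqrt (A ^ 2 + α * x ^ 2 + 1 / 2 * v ^ 2)) /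
          ((A ^ 2 + α * x ^ 2 : ℝ) : ℂ) := by
    intro x
    have hdet : ((u x : GL (Fin 2) ℝ) : Matrix (Fin 2) (Fin 2) ℝ).det = a * b := by
      rw [hu x, det_upper944]
    have hpos : 0 < ((u x : GL (Fin 2) ℝ) : Matrix (Fin 2) (Fin 2) ℝ).det := by
      rw [hdet]; positivity
    have hρ : rhoR (u x) + 1 = 2 * (A ^ 2 + α * x ^ 2) := by
      rw [rhoR_eq_rhoM626, hu x, rhoM_upper944 a b x ha hb]
    have hD : 0 < A ^ 2 + α * x ^ 2 := by positivity
    have hint : ∀ v : ℝ, φ (toGLC626 (famMat626 ((u x : GL (Fin 2) ℝ) :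
        Matrix (Fin 2) (Fin 2) ℝ) v)) = Φ (Real.sqrt (A ^ 2 + α * x ^ 2 + 1 / 2 * v ^ 2)) := by
      intro v
      obtain ⟨-, -, h3, h4⟩ := famAlg626 ((u x : GL (Fin 2) ℝ) : Matrix (Fin 2) (Fin 2) ℝ) hpos v
      rw [profX_rhoC944 hC hφ ζ _ (by rw [h4, hdet, hsab, heζ]), h3, hu x,
        xv_upper944 a b x v ha hb]
    unfold abelF1_626
    rw [if_pos hpos, hdet, hsab, hρ, jn_upper944 n a b x (u x) (hu x)]
    simp_rw [hint]
    rw [integral_div]
    have hDc : ((A ^ 2 + α * x ^ 2 : ℝ) : ℂ) ≠ 0 := Complex.ofReal_ne_zero.2 hD.ne'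
    have hsc : ((2 * (sa * sb) : ℝ) : ℂ) ≠ 0 :=
      Complex.ofReal_ne_zero.2 (by positivity)
    rw [hp, hq]
    push_cast
    push_cast at hDc hsc
    field_simp
    ring
  have hfun : (fun x : ℝ => abelF1_626 c n φ (u x))
      = fun x : ℝ => (p + q * ((x : ℝ) : ℂ)) *
        ∫ v : ℝ, Φ (Real.sqrt (A ^ 2 + α * x ^ 2 + 1 / 2 * v ^ 2)) /
          ((A ^ 2 + α * x ^ 2 : ℝ) : ℂ) := funext hLHS
  rw [hfun, integral_affine_mul944 Φ hΦc hΦ0 A α (1 / 2) hA hα hβ p q,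
    hR1 Φ hΦc hΦ0 A α (1 / 2) hA hα hβ, hRHS]
  -- the constants
  have hs2 : Real.sqrt 2 ^ 2 = 2 := Real.sq_sqrt (by norm_num)
  have hs20 : 0 < Real.sqrt 2 := Real.sqrt_pos.2 (by norm_num)
  have hsαβ : Real.sqrt (α * (1 / 2)) = sa / (2 * Real.sqrt 2 * sb) := by
    rw [Real.sqrt_eq_iff_mul_self_eq (by positivity) (by positivity), hαdef]
    field_simp
    rw [hsa2, hsb2, hs2]
    ring
  have hconst : Real.sqrt 2 / 4 * ((a + b) / (2 * (sa * sb))) *
      (2 * Real.pi / (A * Real.sqrt (α * (1 / 2)))) = 2 * Real.pi * Real.exp (-r) := by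
    rw [hsαβ, her', hAdef]
    field_simp
    rw [hs2]
    ring
  rw [← hconst, hp]
  push_cast
  ring

end Fermat.Agent.LT.T6.H944

end
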